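import Fermat.Agent.LT.T3.H893.NIntSpec

/-!
# Row LT, tower T3, leaf T3.18a.4.8 `AS.N893.ProdFormC` (helper915)

OFF-MAIN.  On `LT/T3/H893/NIntSpec.lean` (helper893, byte-identical copy, sha256 1ddb5c45...).
No hole, nothing assumed.

    prodFormC915 (K) : Fermat.Agent.LT.T3.AS.N893.ProdFormC K

For a totally complex field `∏_w (w α)² = |N_{K/ℚ} α|` (`InfinitePlace.prod_eq_abs_norm`,
`mult w = 2`), and `|N_{K/ℚ} α| = N((a₀)) = N(𝔭_{v₀})ⁿ` (`Ideal.absNorm_span_singleton`), hence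
`∏_w w α = N(𝔭_{v₀})^{n/2}`.
-/

set_option autoImplicit false

open IsDedekindDomain NumberField

noncomputable section

namespace Fermat.Agent.LT.T3.H915

open Fermat.Agent.LT.T3.AS.N893

/-- `∏_w (w x)² = |N_{K/ℚ} x|` for a totally complex field. -/
theorem prod_sq_eq_abs_norm915 (K : Type) [Field K] [NumberField K]
    (hcpx : ∀ w : InfinitePlace K, w.IsComplex) (x : K) :
    (∏ w : InfinitePlace K, w x) ^ 2 = ((|Algebra.norm ℚ x| : ℚ) : ℝ) := by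
  rw [← Finset.prod_pow, ← InfinitePlace.prod_eq_abs_norm]
  refine Finset.prod_congr rfl fun w _ => ?_
  have hm : w.mult = 2 := by
    unfold InfinitePlace.mult
    rw [if_neg (InfinitePlace.not_isReal_iff_isComplex.mpr (hcpx w))]
  rw [hm]

/-- `|N_{K/ℚ} a₀| = N(𝔭)ⁿ` if `(a₀) = 𝔭ⁿ`. -/
theorem abs_norm_eq_pow915 (K : Type) [Field K] [NumberField K] (I : Ideal (𝓞 K)) (a₀ : 𝓞 K)
    (n : ℕ) (hspan : Ideal.span {a₀} = I ^ n) :
    ((|Algebra.norm ℚ (algebraMap (𝓞 K) K a₀)| : ℚ) : ℝ) = (Ideal.absNorm I : ℝ) ^ n := by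
  have h1 : Ideal.absNorm (Ideal.span {a₀}) = Ideal.absNorm I ^ n := by
    rw [hspan, map_pow]
  rw [Ideal.absNorm_span_singleton] at h1
  have h2 : (Algebra.norm ℚ (algebraMap (𝓞 K) K a₀) : ℚ) = ((Algebra.norm ℤ a₀ : ℤ) : ℚ) :=
    (Algebra.coe_norm_int a₀).symm
  have h3 : (|Algebra.norm ℤ a₀| : ℤ) = ((Ideal.absNorm I ^ n : ℕ) : ℤ) := by
    rw [← h1]
    exact (Int.natCast_natAbs _).symm
  rw [h2, ← Int.cast_abs, h3]
  push_cast
  rfl

/-- **T3.18a.4.8 (N.8, product formula).** -/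
theorem prodFormC915 (K : Type) [Field K] [NumberField K] : ProdFormC K := by
  intro hcpx 𝔫 v₀ a₀ n α hF
  have hq0 : Ideal.absNorm v₀.asIdeal ≠ 0 := by
    intro h
    exact v₀.ne_bot (Ideal.absNorm_eq_zero_iff.mp h)
  have hq : (0 : ℝ) < (Ideal.absNorm v₀.asIdeal : ℝ) := by
    exact_mod_cast Nat.pos_of_ne_zero hq0
  have hP0 : 0 ≤ ∏ w : InfinitePlace K, w (α : K) :=
    Finset.prod_nonneg fun w _ => apply_nonneg w _
  have hsq : (∏ w : InfinitePlace K, w (α : K)) ^ 2 = (Ideal.absNorm v₀.asIdeal : ℝ) ^ n := by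
    rw [prod_sq_eq_abs_norm915 K hcpx, hF.coe, abs_norm_eq_pow915 K v₀.asIdeal a₀ n hF.span]
  have hP : ∏ w : InfinitePlace K, w (α : K) = (Ideal.absNorm v₀.asIdeal : ℝ) ^ ((n : ℝ) / 2) := by
    have h1 : ((Ideal.absNorm v₀.asIdeal : ℝ) ^ ((n : ℝ) / 2)) ^ 2
        = (Ideal.absNorm v₀.asIdeal : ℝ) ^ n := by
      rw [← Real.rpow_natCast, ← Real.rpow_mul hq.le]
      have : (n : ℝ) / 2 * ((2 : ℕ) : ℝ) = (n : ℝ) := by push_cast; ring
      rw [this, Real.rpow_natCast]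
    have h2 : 0 ≤ (Ideal.absNorm v₀.asIdeal : ℝ) ^ ((n : ℝ) / 2) := Real.rpow_nonneg hq.le _
    exact (pow_left_inj₀ hP0 h2 two_ne_zero).mp (hsq.trans h1.symm)
  rw [hP, ← Real.rpow_add hq]
  have : -(n : ℝ) / 2 + (n : ℝ) / 2 = 0 := by ring
  rw [this, Real.rpow_zero]

end Fermat.Agent.LT.T3.H915

end
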